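import Mathlib
import Fermat.Prelude.Thm_ModularForm_sturm_bound_Gamma0
import Fermat.Prelude.Thm_CongruenceSubgroup_one_mem_strictPeriods_Gamma0

set_option autoImplicit false

open scoped MatrixGroups

namespace Fermat.Agent.S07.H62

/-- General bound: if `f : G → α` separates left cosets of `H`, then `H.index ≤ Nat.card α`. -/
theorem index_le_card_of_sep {G : Type*} [Group G] (H : Subgroup G) {α : Type*} [Finite α]
    (f : G → α) (hf : ∀ g h : G, f g = f h → g⁻¹ * h ∈ H) : H.index ≤ Nat.card α := by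
  classical
  unfold Subgroup.index
  refine Nat.card_le_card_of_injective (fun q : G ⧸ H => f q.out) ?_
  intro q q' hqq'
  have h1 := hf _ _ hqq'
  have h2 : (QuotientGroup.mk q.out : G ⧸ H) = QuotientGroup.mk q'.out :=
    QuotientGroup.eq.mpr h1
  simpa using h2

theorem Gamma0_two_index_le : (CongruenceSubgroup.Gamma0 2).index ≤ 4 := by
  have h := index_le_card_of_sep (CongruenceSubgroup.Gamma0 2)
    (fun g : SL(2, ℤ) => (((g 0 0 : ℤ) : ZMod 2), ((g 1 0 : ℤ) : ZMod 2))) ?_
  · simpa [Nat.card_eq_fintype_card] using h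
  · intro g h hgh
    simp only [Prod.mk.injEq] at hgh
    obtain ⟨h0, h1⟩ := hgh
    rw [CongruenceSubgroup.Gamma0_mem]
    rw [Matrix.SpecialLinearGroup.coe_mul, Matrix.SpecialLinearGroup.SL2_inv_expl]
    rw [Matrix.mul_apply, Fin.sum_univ_two]
    simp only [Matrix.cons_val_one, Matrix.cons_val_zero, Matrix.cons_val',
      Matrix.cons_val_fin_one]
    push_cast
    rw [h0, h1]
    ring

end Fermat.Agent.S07.H62
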